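import Fermat.Agent.LT.T6.Spec

/-!
# Row LT, tower T6, sub-leaf T6.11 `BCExistsC` (helper999), OFF-MAIN

Existence of the base change `f = b(φ)` of a spherical function `φ` (given by its values on the
Cartan invariants): the Satake polynomials `satake q (a, b)`, `a ≥ b`, span the symmetric Laurent
polynomials (they are triangular with respect to the Schur functions `(x y)^b h_{a-b}(x, y)`),
and `φ^∨(x^l, y^l)` is a symmetric Laurent polynomial which is homogeneous of degree divisible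
by `l` in each term.

Route (all statements are about functions on `{x ≠ 0, y ≠ 0}`):

* `hS n x y = ∑_{i ≤ n} x^i y^(n-i)` (complete homogeneous), `hS (n+2) = (x+y) hS (n+1) - x y hS n`,
  `hS (n+2) = x^(n+2) + y^(n+2) + x y hS n`;
* `satPoly q x y (n+2) = r^(n+2) hS (n+2) - r^n x y hS n`, `r = √q` (closed form of the recursion);
* `Rep l q g` : `g` is the Satake transform of a dominant finitely supported `f` with support on
  `l ∣ a + b`; `Rep` is closed under sums and scalar multiples;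
* Schur functions are `Rep` (two-step induction), hence the monomial symmetric functions
  `x^α y^β + x^β y^α`, `l ∣ α + β`, hence `(x^l y^l)^d hS n (x^l) (y^l)`, hence
  `satake (q^l) lam (x^l) (y^l)`.
-/

set_option autoImplicit false

noncomputable section

namespace Fermat.Agent.LT.T6.H999

open Fermat.Agent.LT.T6

/-! ## The complete homogeneous polynomials in two variables -/

/-- `h_n(x, y) = ∑_{i ≤ n} x^i y^(n-i)`. -/
def hS (n : ℕ) (x y : ℂ) : ℂ := ∑ i ∈ Finset.range (n + 1), x ^ i * y ^ (n - i)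

theorem hS_zero (x y : ℂ) : hS 0 x y = 1 := by simp [hS]

theorem hS_succ_left (n : ℕ) (x y : ℂ) : hS (n + 1) x y = x * hS n x y + y ^ (n + 1) := by
  unfold hS
  rw [Finset.sum_range_succ', Finset.mul_sum]
  congr 1
  · apply Finset.sum_congr rfl
    intro i _
    have h : n + 1 - (i + 1) = n - i := by omega
    rw [h]; ring
  · simp

theorem hS_succ_right (n : ℕ) (x y : ℂ) : hS (n + 1) x y = y * hS n x y + x ^ (n + 1) := by
  unfold hS
  rw [Finset.sum_range_succ, Finset.mul_sum]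
  congr 1
  · apply Finset.sum_congr rfl
    intro i hi
    have hi' : i ≤ n := Nat.lt_succ_iff.mp (Finset.mem_range.mp hi)
    have h : n + 1 - i = (n - i) + 1 := by omega
    rw [h]; ring
  · simp

theorem hS_one (x y : ℂ) : hS 1 x y = x + y := by
  rw [hS_succ_left, hS_zero]; ring

theorem hS_add_two (n : ℕ) (x y : ℂ) :
    hS (n + 2) x y = x ^ (n + 2) + y ^ (n + 2) + x * y * hS n x y := by
  rw [hS_succ_left (n + 1), hS_succ_right n]; ring

theorem hS_rec (n : ℕ) (x y : ℂ) :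
    hS (n + 2) x y = (x + y) * hS (n + 1) x y - x * y * hS n x y := by
  rw [hS_succ_left (n + 1)]
  have h := hS_succ_left n x y
  linear_combination (-y) * h

/-! ## The closed form of the Satake polynomials -/

/-- `√q` as a complex number. -/
def rt (q : ℕ) : ℂ := ((Real.sqrt q : ℝ) : ℂ)

theorem rt_sq (q : ℕ) : rt q ^ 2 = (q : ℂ) := by
  unfold rt
  rw [← Complex.ofReal_pow, Real.sq_sqrt (Nat.cast_nonneg q)]
  simp

theorem rt_ne_zero {q : ℕ} (hq : 0 < q) : rt q ≠ 0 := by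
  intro h
  have h2 := rt_sq q
  rw [h] at h2
  have h3 : (q : ℂ) = 0 := by rw [← h2]; simp
  have h4 : q = 0 := by exact_mod_cast h3
  omega

theorem satPoly_zero (q : ℕ) (x y : ℂ) : satPoly q x y 0 = 1 := rfl

theorem satPoly_one (q : ℕ) (x y : ℂ) : satPoly q x y 1 = rt q * (x + y) := rfl

theorem satPoly_two (q : ℕ) (x y : ℂ) :
    satPoly q x y 2 = (rt q * (x + y)) ^ 2 - ((q : ℂ) + 1) * (x * y) := rfl

theorem satPoly_add_three (q : ℕ) (x y : ℂ) (n : ℕ) :
    satPoly q x y (n + 3)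
      = rt q * (x + y) * satPoly q x y (n + 2) - (q : ℂ) * (x * y) * satPoly q x y (n + 1) := rfl

theorem satPoly_closed_aux (q : ℕ) (x y : ℂ) (n : ℕ) :
    (satPoly q x y (n + 2) = rt q ^ (n + 2) * hS (n + 2) x y - rt q ^ n * (x * y) * hS n x y) ∧
    (satPoly q x y (n + 3)
      = rt q ^ (n + 3) * hS (n + 3) x y - rt q ^ (n + 1) * (x * y) * hS (n + 1) x y) := by
  have hr := rt_sq q
  induction n with
  | zero =>
    have h2 : satPoly q x y 2 = rt q ^ 2 * hS 2 x y - rt q ^ 0 * (x * y) * hS 0 x y := by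
      rw [satPoly_two, hS_rec 0, hS_one, hS_zero, ← hr]; ring
    refine ⟨h2, ?_⟩
    rw [satPoly_add_three, h2, satPoly_one, hS_rec 1, hS_rec 0, hS_one, hS_zero, ← hr]; ring
  | succ n ih =>
    refine ⟨ih.2, ?_⟩
    rw [satPoly_add_three, ih.2, ih.1, hS_rec (n + 2), hS_rec (n + 1), hS_rec n, ← hr]
    ring

theorem satPoly_closed (q : ℕ) (x y : ℂ) (n : ℕ) :
    satPoly q x y (n + 2) = rt q ^ (n + 2) * hS (n + 2) x y - rt q ^ n * (x * y) * hS n x y :=
  (satPoly_closed_aux q x y n).1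

/-! ## Satake transforms of dominant functions supported on `l ∣ a + b` -/

/-- `g` is, on `{x ≠ 0, y ≠ 0}`, the Satake transform (at level `q`) of a dominant finitely
supported function whose support lies in `{(a, b) : l ∣ a + b}`. -/
def Rep (l q : ℕ) (g : ℂ → ℂ → ℂ) : Prop :=
  ∃ f : (ℤ × ℤ) →₀ ℂ, IsDominant f ∧ (∀ lam ∈ f.support, (l : ℤ) ∣ lam.1 + lam.2) ∧
    ∀ x y : ℂ, x ≠ 0 → y ≠ 0 → (f.sum fun lam c => c * satake q lam x y) = g x y

variable {l q : ℕ}

theorem Rep.congr {g g' : ℂ → ℂ → ℂ} (h : Rep l q g)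
    (hg : ∀ x y : ℂ, x ≠ 0 → y ≠ 0 → g x y = g' x y) : Rep l q g' := by
  obtain ⟨f, hd, hl, hf⟩ := h
  exact ⟨f, hd, hl, fun x y hx hy => (hf x y hx hy).trans (hg x y hx hy)⟩

theorem Rep.zero : Rep l q (fun _ _ => 0) := by
  refine ⟨0, ?_, ?_, ?_⟩
  · intro lam h; simp at h
  · intro lam h; simp at h
  · intro x y _ _; simp

theorem Rep.add {g₁ g₂ : ℂ → ℂ → ℂ} (h₁ : Rep l q g₁) (h₂ : Rep l q g₂) :
    Rep l q (fun x y => g₁ x y + g₂ x y) := by
  classical
  obtain ⟨f₁, hd₁, hl₁, hf₁⟩ := h₁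
  obtain ⟨f₂, hd₂, hl₂, hf₂⟩ := h₂
  refine ⟨f₁ + f₂, ?_, ?_, ?_⟩
  · intro lam h
    rcases Finset.mem_union.mp (Finsupp.support_add h) with h | h
    · exact hd₁ lam h
    · exact hd₂ lam h
  · intro lam h
    rcases Finset.mem_union.mp (Finsupp.support_add h) with h | h
    · exact hl₁ lam h
    · exact hl₂ lam h
  · intro x y hx hy
    rw [Finsupp.sum_add_index' (fun _ => zero_mul _) (fun _ _ _ => add_mul _ _ _),
      hf₁ x y hx hy, hf₂ x y hx hy]

theorem Rep.smul {g : ℂ → ℂ → ℂ} (c : ℂ) (h : Rep l q g) :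
    Rep l q (fun x y => c * g x y) := by
  classical
  obtain ⟨f, hd, hl, hf⟩ := h
  refine ⟨c • f, ?_, ?_, ?_⟩
  · intro lam h
    exact hd lam (Finsupp.support_smul h)
  · intro lam h
    exact hl lam (Finsupp.support_smul h)
  · intro x y hx hy
    show ((c • f).sum fun lam c => c * satake q lam x y) = c * g x y
    rw [Finsupp.sum_smul_index' (fun _ => zero_mul _), ← hf x y hx hy, Finsupp.mul_sum]
    apply Finsupp.sum_congr
    intro lam _
    rw [smul_eq_mul, mul_assoc]

theorem Rep.single (lam : ℤ × ℤ) (hd : lam.2 ≤ lam.1) (hl : (l : ℤ) ∣ lam.1 + lam.2) :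
    Rep l q (fun x y => satake q lam x y) := by
  classical
  refine ⟨Finsupp.single lam 1, ?_, ?_, ?_⟩
  · intro mu h
    have := Finset.mem_singleton.mp (Finsupp.support_single_subset h)
    rw [this]; exact hd
  · intro mu h
    have := Finset.mem_singleton.mp (Finsupp.support_single_subset h)
    rw [this]; exact hl
  · intro x y _ _
    rw [Finsupp.sum_single_index (zero_mul _), one_mul]

theorem Rep.finset_sum {ι : Type} (s : Finset ι) (g : ι → ℂ → ℂ → ℂ)
    (h : ∀ i ∈ s, Rep l q (g i)) : Rep l q (fun x y => ∑ i ∈ s, g i x y) := by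
  classical
  induction s using Finset.induction_on with
  | empty => simpa using (Rep.zero : Rep l q (fun _ _ => 0))
  | insert a s ha ih =>
    have h1 : Rep l q (g a) := h a (Finset.mem_insert_self a s)
    have h2 : Rep l q (fun x y => ∑ i ∈ s, g i x y) :=
      ih (fun i hi => h i (Finset.mem_insert_of_mem hi))
    refine (h1.add h2).congr ?_
    intro x y _ _
    rw [Finset.sum_insert ha]

/-! ## Schur functions are Satake transforms -/

theorem satake_shift (q : ℕ) (d : ℤ) (m : ℕ) (x y : ℂ) :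
    satake q (d + (m : ℤ), d) x y = (x * y) ^ d * satPoly q x y m := by
  unfold satake
  simp

theorem rep_satake_shift (d : ℤ) (m : ℕ) (h : (l : ℤ) ∣ 2 * d + (m : ℤ)) :
    Rep l q (fun x y => (x * y) ^ d * satPoly q x y m) := by
  refine (Rep.single (l := l) (q := q) (d + (m : ℤ), d) ?_ ?_).congr ?_
  · show d ≤ d + (m : ℤ)
    omega
  · show (l : ℤ) ∣ d + (m : ℤ) + d
    have e : d + (m : ℤ) + d = 2 * d + (m : ℤ) := by ring
    rw [e]; exact h
  · intro x y _ _
    exact satake_shift q d m x y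

/-- The Schur function `(x y)^d h_m(x, y)` is a Satake transform at level `q`. -/
theorem rep_schur (hq : 0 < q) (m : ℕ) :
    ∀ d : ℤ, (l : ℤ) ∣ 2 * d + (m : ℤ) → Rep l q (fun x y => (x * y) ^ d * hS m x y) := by
  have hr : rt q ≠ 0 := rt_ne_zero hq
  induction m using Nat.twoStepInduction with
  | zero =>
    intro d hd
    refine (rep_satake_shift (l := l) (q := q) d 0 hd).congr ?_
    intro x y _ _
    rw [satPoly_zero, hS_zero]
  | one =>
    intro d hd
    refine ((rep_satake_shift (l := l) (q := q) d 1 hd).smul (rt q)⁻¹).congr ?_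
    intro x y _ _
    rw [satPoly_one, hS_one]
    field_simp
  | more m ih0 _ =>
    intro d hd
    have h1 : Rep l q (fun x y => (x * y) ^ d * satPoly q x y (m + 2)) :=
      rep_satake_shift d (m + 2) hd
    have h2 : Rep l q (fun x y => (x * y) ^ (d + 1) * hS m x y) := by
      refine ih0 (d + 1) ?_
      have e : 2 * (d + 1) + (m : ℤ) = 2 * d + ((m + 2 : ℕ) : ℤ) := by push_cast; ring
      rw [e]; exact hd
    refine ((h1.add (h2.smul (rt q ^ m))).smul (rt q ^ (m + 2))⁻¹).congr ?_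
    intro x y hx hy
    have hxy : x * y ≠ 0 := mul_ne_zero hx hy
    have hrm : rt q ^ (m + 2) ≠ 0 := pow_ne_zero _ hr
    show (rt q ^ (m + 2))⁻¹ * ((x * y) ^ d * satPoly q x y (m + 2)
        + rt q ^ m * ((x * y) ^ (d + 1) * hS m x y)) = (x * y) ^ d * hS (m + 2) x y
    rw [satPoly_closed, zpow_add_one₀ hxy]
    field_simp
    ring

/-- The power sums `(x y)^d (x^m + y^m)` are Satake transforms at level `q`. -/
theorem rep_powsum (hq : 0 < q) (m : ℕ) (d : ℤ) (h : (l : ℤ) ∣ 2 * d + (m : ℤ)) :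
    Rep l q (fun x y => (x * y) ^ d * (x ^ m + y ^ m)) := by
  match m, h with
  | 0, h =>
    refine ((rep_schur hq 0 d h).smul 2).congr ?_
    intro x y _ _
    show 2 * ((x * y) ^ d * hS 0 x y) = (x * y) ^ d * (x ^ 0 + y ^ 0)
    rw [hS_zero, pow_zero, pow_zero]; ring
  | 1, h =>
    refine (rep_schur hq 1 d h).congr ?_
    intro x y _ _
    show (x * y) ^ d * hS 1 x y = (x * y) ^ d * (x ^ 1 + y ^ 1)
    rw [hS_one, pow_one, pow_one]
  | m + 2, h =>
    have h1 := rep_schur (l := l) hq (m + 2) d h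
    have h2 : Rep l q (fun x y => (x * y) ^ (d + 1) * hS m x y) := by
      refine rep_schur hq m (d + 1) ?_
      have e : 2 * (d + 1) + (m : ℤ) = 2 * d + ((m + 2 : ℕ) : ℤ) := by push_cast; ring
      rw [e]; exact h
    refine (h1.add (h2.smul (-1))).congr ?_
    intro x y hx hy
    have hxy : x * y ≠ 0 := mul_ne_zero hx hy
    show (x * y) ^ d * hS (m + 2) x y + -1 * ((x * y) ^ (d + 1) * hS m x y)
      = (x * y) ^ d * (x ^ (m + 2) + y ^ (m + 2))
    rw [hS_add_two, zpow_add_one₀ hxy]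
    ring

/-! ## The base-changed functions -/

theorem zpow_pow_mul (l : ℕ) (d : ℤ) (x y : ℂ) :
    (x ^ l * y ^ l) ^ d = (x * y) ^ ((l : ℤ) * d) := by
  rw [zpow_mul, zpow_natCast, mul_pow]

/-- `(x^l y^l)^d h_n(x^l, y^l)` is a Satake transform at level `q` of a function supported on
`l ∣ a + b`. -/
theorem rep_target_schur (hq : 0 < q) (n : ℕ) :
    ∀ d : ℤ, Rep l q (fun x y => (x ^ l * y ^ l) ^ d * hS n (x ^ l) (y ^ l)) := by
  induction n using Nat.twoStepInduction with
  | zero =>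
    intro d
    have h0 : (l : ℤ) ∣ 2 * ((l : ℤ) * d) + ((0 : ℕ) : ℤ) :=
      ⟨2 * d, by push_cast; ring⟩
    refine ((rep_powsum hq 0 ((l : ℤ) * d) h0).smul (1 / 2)).congr ?_
    intro x y _ _
    show 1 / 2 * ((x * y) ^ ((l : ℤ) * d) * (x ^ 0 + y ^ 0))
      = (x ^ l * y ^ l) ^ d * hS 0 (x ^ l) (y ^ l)
    rw [hS_zero, zpow_pow_mul, pow_zero, pow_zero]; ring
  | one =>
    intro d
    have h0 : (l : ℤ) ∣ 2 * ((l : ℤ) * d) + (l : ℤ) :=
      ⟨2 * d + 1, by ring⟩
    refine (rep_powsum hq l ((l : ℤ) * d) h0).congr ?_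
    intro x y _ _
    show (x * y) ^ ((l : ℤ) * d) * (x ^ l + y ^ l)
      = (x ^ l * y ^ l) ^ d * hS 1 (x ^ l) (y ^ l)
    rw [hS_one, zpow_pow_mul]
  | more n ih0 _ =>
    intro d
    have h0 : (l : ℤ) ∣ 2 * ((l : ℤ) * d) + ((l * (n + 2) : ℕ) : ℤ) :=
      ⟨2 * d + ((n : ℤ) + 2), by push_cast; ring⟩
    have h1 := rep_powsum (l := l) hq (l * (n + 2)) ((l : ℤ) * d) h0
    have h2 := ih0 (d + 1)
    refine (h1.add h2).congr ?_
    intro x y hx hy
    have hxy : x ^ l * y ^ l ≠ 0 := mul_ne_zero (pow_ne_zero _ hx) (pow_ne_zero _ hy)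
    show (x * y) ^ ((l : ℤ) * d) * (x ^ (l * (n + 2)) + y ^ (l * (n + 2)))
        + (x ^ l * y ^ l) ^ (d + 1) * hS n (x ^ l) (y ^ l)
      = (x ^ l * y ^ l) ^ d * hS (n + 2) (x ^ l) (y ^ l)
    rw [hS_add_two, zpow_add_one₀ hxy, ← zpow_pow_mul, pow_mul, pow_mul]
    ring

/-- `φ ↦ satake (q^l) lam (x^l) (y^l)` is a Satake transform at level `q` of a dominant function
supported on `l ∣ a + b`. -/
theorem rep_target (hq : 0 < q) (lam : ℤ × ℤ) :
    Rep l q (fun x y => satake (q ^ l) lam (x ^ l) (y ^ l)) := by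
  show Rep l q (fun x y =>
    (x ^ l * y ^ l) ^ lam.2 * satPoly (q ^ l) (x ^ l) (y ^ l) (lam.1 - lam.2).toNat)
  generalize (lam.1 - lam.2).toNat = n
  match n with
  | 0 =>
    refine (rep_target_schur hq 0 lam.2).congr ?_
    intro x y _ _
    rw [satPoly_zero, hS_zero]
  | 1 =>
    refine ((rep_target_schur hq 1 lam.2).smul (rt (q ^ l))).congr ?_
    intro x y _ _
    show rt (q ^ l) * ((x ^ l * y ^ l) ^ lam.2 * hS 1 (x ^ l) (y ^ l))
      = (x ^ l * y ^ l) ^ lam.2 * satPoly (q ^ l) (x ^ l) (y ^ l) 1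
    rw [satPoly_one, hS_one]; ring
  | n + 2 =>
    have h1 := rep_target_schur (l := l) hq (n + 2) lam.2
    have h2 := rep_target_schur (l := l) hq n (lam.2 + 1)
    refine ((h1.smul (rt (q ^ l) ^ (n + 2))).add (h2.smul (-(rt (q ^ l) ^ n)))).congr ?_
    intro x y hx hy
    have hxy : x ^ l * y ^ l ≠ 0 := mul_ne_zero (pow_ne_zero _ hx) (pow_ne_zero _ hy)
    show rt (q ^ l) ^ (n + 2) * ((x ^ l * y ^ l) ^ lam.2 * hS (n + 2) (x ^ l) (y ^ l))
        + -(rt (q ^ l) ^ n) * ((x ^ l * y ^ l) ^ (lam.2 + 1) * hS n (x ^ l) (y ^ l))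
      = (x ^ l * y ^ l) ^ lam.2 * satPoly (q ^ l) (x ^ l) (y ^ l) (n + 2)
    rw [satPoly_closed, zpow_add_one₀ hxy]
    ring

/-! ## The leaf -/

/-- **T6.11 / T6.B4** (`BCExistsC`): every spherical function `φ` for the unramified extension of
degree `l` has a base change `f = b(φ)`, which is dominant and supported on `l ∣ a + b`. -/
theorem bcExistsC999 : BCExistsC := by
  intro l q _ hq φ _
  have hq0 : 0 < q := by omega
  obtain ⟨f, hd, hl, hf⟩ := Rep.finset_sum (l := l) (q := q) φ.support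
    (fun lam x y => φ lam * satake (q ^ l) lam (x ^ l) (y ^ l))
    (fun lam _ => (rep_target hq0 lam).smul (φ lam))
  exact ⟨f, hd, fun x y hx hy => hf x y hx hy, hl⟩

end Fermat.Agent.LT.T6.H999
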